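import Mathlib
import Fermat.Agent.LT.T7.H37.ThinSpec

/-!
# Row LT, tower T7, leaves T7.13e `ClassOneC` and T7.13f `NormEmbC` (helper91)

OFF-MAIN.  VERBATIM against `LT/T7/H37/ThinSpec.lean` (helper37@8584ef06e, sha256 `4c697dce`).

* `normEmbC91 : NormEmbC` -- an imaginary quadratic field has ONE infinite place, of multiplicity
  two, so `|e x|² = ∏_w ‖x‖_w^{mult w} = |N_{K/ℚ} x| = N (x)`.
* `classOneC91 : ClassOneC` -- an imaginary quadratic field with a square root `x` of `-3` is a
  third cyclotomic extension of `ℚ` (`ζ = (x - 1)/2`, `[K : ℚ] = 2`, `x ∉ ℚ`), hence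
  `IsCyclotomicExtension.Rat.three_pid`.
-/

set_option autoImplicit false

open IsDedekindDomain NumberField

noncomputable section

namespace Fermat.Agent.LT.T7.H91

open Fermat.Agent.LT.T7 Fermat.Agent.LT.T7.H37

variable {K : Type} [Field K] [NumberField K]

/-- The unique infinite place of an imaginary quadratic field. -/
theorem exists_unique_place91 (h : IsImagQuad K) :
    ∃ w₀ : InfinitePlace K, ∀ w : InfinitePlace K, w = w₀ := by
  have h1 : Fintype.card (InfinitePlace K) = 1 := by
    rw [← Nat.card_eq_fintype_card]; exact h.1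
  obtain ⟨w₀, hw₀⟩ := Fintype.card_eq_one_iff.1 h1
  exact ⟨w₀, hw₀⟩

/-- `‖x‖_w² = |N_{K/ℚ} x|` at the infinite place of an imaginary quadratic field. -/
theorem place_sq91 (h : IsImagQuad K) (w : InfinitePlace K) (x : K) :
    w x ^ 2 = |Algebra.norm ℚ x| := by
  obtain ⟨w₀, hw₀⟩ := exists_unique_place91 h
  have hprod := InfinitePlace.prod_eq_abs_norm x
  have huniv : (Finset.univ : Finset (InfinitePlace K)) = {w} := by
    ext w'
    simp only [Finset.mem_univ, Finset.mem_singleton, true_iff]
    rw [hw₀ w', hw₀ w]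
  rw [huniv, Finset.prod_singleton, (h.2 w).mult_eq_two] at hprod
  exact_mod_cast hprod

/-- **T7.13f NORMEMB.** -/
theorem normEmbC91 : NormEmbC := by
  intro K _ _ h e x
  have h1 : ‖e (x : K)‖ = InfinitePlace.mk e (x : K) := (InfinitePlace.apply e (x : K)).symm
  rw [h1, place_sq91 h, Ideal.absNorm_span_singleton]
  have h2 : ((Algebra.norm ℤ x : ℤ) : ℚ) = Algebra.norm ℚ (x : K) := Algebra.coe_norm_int x
  rw [← h2]
  rw [Nat.cast_natAbs]
  push_cast
  rfl

/-- The degree of an imaginary quadratic field is two. -/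
theorem finrank_eq_two91 (h : IsImagQuad K) : Module.finrank ℚ K = 2 := by
  classical
  have h0 : InfinitePlace.nrRealPlaces K = 0 := by
    unfold InfinitePlace.nrRealPlaces
    rw [Fintype.card_eq_zero_iff]
    exact ⟨fun w => InfinitePlace.not_isReal_iff_isComplex.2 (h.2 w.1) w.2⟩
  have h1 : InfinitePlace.nrComplexPlaces K = 1 := by
    unfold InfinitePlace.nrComplexPlaces
    have hc : Fintype.card (InfinitePlace K) = 1 := by
      rw [← Nat.card_eq_fintype_card]; exact h.1
    rw [← hc]
    exact Fintype.card_of_subtype Finset.univ (fun w => by simp [h.2 w])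
  have := InfinitePlace.card_add_two_mul_card_eq_rank (K := K)
  rw [h0, h1] at this
  omega

/-- A square root of `-3` is not rational. -/
theorem sqrt_not_rat91 {x : K} (hx : x * x = -3) (q : ℚ) : algebraMap ℚ K q ≠ x := by
  intro h
  rw [← h, ← map_mul] at hx
  have h3 : algebraMap ℚ K (q * q) = algebraMap ℚ K (-3) := by
    rw [hx]; simp
  have h4 : q * q = -3 := (algebraMap ℚ K).injective h3
  nlinarith [mul_self_nonneg q]

/-- `ℚ(x) = K` for a square root `x` of `-3` in an imaginary quadratic field. -/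
theorem adjoin_sqrt_eq_top91 (h : IsImagQuad K) {x : K} (hx : x * x = -3) :
    Algebra.adjoin ℚ ({x} : Set K) = ⊤ := by
  have hfin := finrank_eq_two91 h
  have hint : IsIntegral ℚ x := Algebra.IsIntegral.isIntegral x
  -- the intermediate field `ℚ⟮x⟯`
  have hne : IntermediateField.adjoin ℚ ({x} : Set K) ≠ ⊥ := by
    intro hbot
    have hmem : x ∈ IntermediateField.adjoin ℚ ({x} : Set K) :=
      IntermediateField.mem_adjoin_simple_self ℚ x
    rw [hbot, IntermediateField.mem_bot] at hmem
    obtain ⟨q, hq⟩ := hmem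
    exact sqrt_not_rat91 hx q hq
  have htop : IntermediateField.adjoin ℚ ({x} : Set K) = ⊤ := by
    have hprime : (Module.finrank ℚ K).Prime := by rw [hfin]; exact Nat.prime_two
    rcases IntermediateField.isSimpleOrder_of_finrank_prime ℚ K hprime |>.eq_bot_or_eq_top
      (IntermediateField.adjoin ℚ ({x} : Set K)) with hb | ht
    · exact absurd hb hne
    · exact ht
  have := IntermediateField.adjoin_simple_toSubalgebra_of_isAlgebraic hint.isAlgebraic
  rw [htop] at this
  rw [← this]
  rfl

/-- **T7.13e CLASSONE.** -/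
theorem classOneC91 : ClassOneC := by
  intro K _ _ h hs
  obtain ⟨x, hx⟩ := hs
  -- the primitive cube root of unity
  set ζ : K := (x - 1) / 2 with hζ
  have h2 : (2 : K) ≠ 0 := two_ne_zero
  have hx2 : x = 2 * ζ + 1 := by rw [hζ]; field_simp; ring
  have hrel : ζ ^ 2 + ζ + 1 = 0 := by
    have : (2 * ζ + 1) * (2 * ζ + 1) = -3 := by rw [← hx2]; exact hx
    have h4 : (4 : K) * (ζ ^ 2 + ζ + 1) = 0 := by linear_combination this
    rcases mul_eq_zero.1 h4 with h | h
    · exact absurd h (by norm_num)
    · exact h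
  have hcube : ζ ^ 3 = 1 := by linear_combination (ζ - 1) * hrel
  have hne1 : ζ ≠ 1 := by
    intro h1
    rw [h1] at hrel
    norm_num at hrel
  have hprim : IsPrimitiveRoot ζ 3 := by
    refine IsPrimitiveRoot.mk_of_lt ζ (by norm_num) hcube ?_
    intro l hl0 hl3 hl
    interval_cases l
    · exact hne1 (by simpa using hl)
    · -- `ζ² = 1` gives `ζ = -2`
      have h5 : ζ = -2 := by linear_combination hrel - hl
      rw [h5] at hrel
      norm_num at hrel
  have : IsCyclotomicExtension {3} ℚ K := by
    rw [IsCyclotomicExtension.iff_singleton]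
    refine ⟨⟨ζ, hprim⟩, fun y => ?_⟩
    have htop := adjoin_sqrt_eq_top91 h hx
    have hsub : Algebra.adjoin ℚ ({x} : Set K) ≤ Algebra.adjoin ℚ {b : K | b ^ 3 = 1} := by
      apply Algebra.adjoin_le
      intro z hz
      rw [Set.mem_singleton_iff] at hz
      rw [hz, hx2]
      have hζmem : ζ ∈ Algebra.adjoin ℚ {b : K | b ^ 3 = 1} :=
        Algebra.subset_adjoin (by simpa using hcube)
      exact Subalgebra.add_mem _ (Subalgebra.mul_mem _ (by
        have : (2 : K) = algebraMap ℚ K 2 := by simp
        rw [this]; exact Subalgebra.algebraMap_mem _ _) hζmem) (Subalgebra.one_mem _)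
    rw [htop] at hsub
    exact hsub Algebra.mem_top
  exact IsCyclotomicExtension.Rat.three_pid K

end Fermat.Agent.LT.T7.H91

end
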