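import Mathlib

/-!
# Row LT, tower T7, ASSIST for leaf T7.14.6a `FoldWhitC`, step (4): abstract PARSEVAL (helper91)

OFF-MAIN.  Registry row 1801.  Mathlib only.

`G` abelian topological group (Borel, second countable), `Γ` a countable subgroup, `μ` an
invariant measure, `D` a fundamental domain of FINITE measure, `χ i` (`i : ι`, `ι` countable)
pairwise distinct continuous unitary characters trivial on `Γ` which are COMPLETE on continuous
`Γ`-periodic functions (a continuous periodic `F` with `∫_D F χ i = 0` for all `i` vanishes).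
Then for continuous bounded `Γ`-periodic `f₁`, `f₂`

`μ(D) ∫_D f₁ f̄₂ dμ = ∑_i A_i(f₁) conj A_i(f₂)`,   `A_i(f) = ∫_D f χ i dμ`,

and the series converges absolutely (`parseval_abstract91`).

Proof (classical): `h(t) = ∫_D f₁(x + t) f̄₂(x) dx` is continuous, periodic, with coefficients
`A_i(f₁) conj A_i(f₂)` (Fubini + invariance of `∫_D` under translations); the coefficients are
absolutely summable (Bessel in `L²(D)` + Cauchy--Schwarz), so `g(t) = μ(D)⁻¹ ∑_i a_i conj (χ i t)`
is continuous, periodic, with the same coefficients; completeness gives `h = g`; evaluate at `0`.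
-/

set_option autoImplicit false
set_option linter.unusedSectionVars false

namespace Fermat.Agent.LT.T7.H91

open MeasureTheory Filter Set Topology ComplexConjugate

/-- A continuous unitary character of `G`, trivial on `Γ`. -/
structure IsChar91 {G : Type*} [AddCommGroup G] [TopologicalSpace G] (Γ : AddSubgroup G)
    (χ : G → ℂ) : Prop where
  cont : Continuous χ
  add : ∀ x y, χ (x + y) = χ x * χ y
  norm : ∀ x, ‖χ x‖ = 1
  triv : ∀ γ ∈ Γ, χ γ = 1

namespace IsChar91

variable {G : Type*} [AddCommGroup G] [TopologicalSpace G] {Γ : AddSubgroup G} {χ : G → ℂ}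

theorem ne_zero (h : IsChar91 Γ χ) (x : G) : χ x ≠ 0 := by
  intro h0
  have := h.norm x
  rw [h0, norm_zero] at this
  exact zero_ne_one this

theorem zero (h : IsChar91 Γ χ) : χ 0 = 1 := by
  have h1 := h.add 0 0
  rw [add_zero] at h1
  have h2 : χ 0 * 1 = χ 0 * χ 0 := by rw [mul_one]; exact h1
  exact (mul_left_cancel₀ (h.ne_zero 0) h2).symm

theorem conj_mul (h : IsChar91 Γ χ) (x : G) : conj (χ x) * χ x = 1 := by
  rw [mul_comm, Complex.mul_conj, Complex.normSq_eq_norm_sq, h.norm]
  simp

theorem mul_conj (h : IsChar91 Γ χ) (x : G) : χ x * conj (χ x) = 1 := by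
  rw [mul_comm]; exact h.conj_mul x

theorem periodic (h : IsChar91 Γ χ) (γ : G) (hγ : γ ∈ Γ) (x : G) : χ (x + γ) = χ x := by
  rw [h.add, h.triv γ hγ, mul_one]

end IsChar91

section Abstract

variable {G : Type*} [AddCommGroup G] [TopologicalSpace G] [IsTopologicalAddGroup G]
  [MeasurableSpace G] [BorelSpace G] [SecondCountableTopology G]
  (Γ : AddSubgroup G) [Countable Γ]
  (μ : Measure G) [μ.IsAddLeftInvariant]
  (D : Set G)

/-- The integral of a `Γ`-periodic function over a fundamental domain is invariant under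
translations. -/
theorem setIntegral_add_right91 (hD : IsAddFundamentalDomain Γ D μ) (F : G → ℂ)
    (hF : ∀ γ ∈ Γ, ∀ x, F (x + γ) = F x) (t : G) :
    ∫ x in D, F (x + t) ∂μ = ∫ x in D, F x ∂μ := by
  have hmp : MeasurePreserving (fun x : G => x + t) μ μ := measurePreserving_add_right μ t
  have hD' : IsAddFundamentalDomain Γ ((fun x : G => x + t) ⁻¹' D) μ := by
    refine hD.preimage_of_equiv hmp.quasiMeasurePreserving (e := id) Function.bijective_id ?_
    intro g x
    show ((g : G) + x) + t = (g : G) + (x + t)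
    rw [add_assoc]
  have h1 : ∫ x in (fun x : G => x + t) ⁻¹' D, F (x + t) ∂μ = ∫ y in D, F y ∂μ :=
    hmp.setIntegral_preimage_emb (measurableEmbedding_addRight t) F D
  have h2 : ∫ x in D, F (x + t) ∂μ = ∫ x in (fun x : G => x + t) ⁻¹' D, F (x + t) ∂μ := by
    refine hD.setIntegral_eq hD' (fun g x => ?_)
    show F (((g : G) + x) + t) = F (x + t)
    have : ((g : G) + x) + t = (x + t) + (g : G) := by abel
    rw [this]
    exact hF _ g.2 _
  rw [h2, h1]

variable {Γ μ D}

/-- The integral over a fundamental domain of a character which is not identically `1`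
vanishes. -/
theorem setIntegral_char_eq_zero91 (hD : IsAddFundamentalDomain Γ D μ) {u : G → ℂ}
    (hadd : ∀ x y, u (x + y) = u x * u y) (hper : ∀ γ ∈ Γ, ∀ x, u (x + γ) = u x)
    {t : G} (ht : u t ≠ 1) : ∫ x in D, u x ∂μ = 0 := by
  have h1 := setIntegral_add_right91 Γ μ D hD u hper t
  have h2 : ∫ x in D, u (x + t) ∂μ = (∫ x in D, u x ∂μ) * u t := by
    rw [← integral_mul_const]
    refine integral_congr_ae (Eventually.of_forall fun x => ?_)
    exact hadd x t
  rw [h2] at h1
  have h3 : (∫ x in D, u x ∂μ) * (u t - 1) = 0 := by rw [mul_sub, h1, mul_one, sub_self]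
  rcases mul_eq_zero.mp h3 with h | h
  · exact h
  · exact absurd (sub_eq_zero.mp h) ht

/-- Orthogonality relations of distinct characters. -/
theorem setIntegral_char_mul_conj91 (hD : IsAddFundamentalDomain Γ D μ) {χ₁ χ₂ : G → ℂ}
    (h₁ : IsChar91 Γ χ₁) (h₂ : IsChar91 Γ χ₂) {t : G} (ht : χ₁ t ≠ χ₂ t) :
    ∫ x in D, χ₁ x * conj (χ₂ x) ∂μ = 0 := by
  refine setIntegral_char_eq_zero91 (u := fun x => χ₁ x * conj (χ₂ x)) hD ?_ ?_ (t := t) ?_
  · intro x y
    show χ₁ (x + y) * conj (χ₂ (x + y)) = χ₁ x * conj (χ₂ x) * (χ₁ y * conj (χ₂ y))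
    rw [h₁.add, h₂.add, map_mul]
    ring
  · intro γ hγ x
    show χ₁ (x + γ) * conj (χ₂ (x + γ)) = χ₁ x * conj (χ₂ x)
    rw [h₁.periodic γ hγ, h₂.periodic γ hγ]
  · intro h
    apply ht
    have h3 : χ₁ t * conj (χ₂ t) * χ₂ t = 1 * χ₂ t := by rw [h]
    rw [mul_assoc, h₂.conj_mul, mul_one, one_mul] at h3
    exact h3

theorem setIntegral_char_self91 {χ : G → ℂ} (h : IsChar91 Γ χ) :
    ∫ x in D, χ x * conj (χ x) ∂μ = (μ.real D : ℂ) := by
  have : (fun x => χ x * conj (χ x)) = fun _ => (1 : ℂ) := funext fun x => h.mul_conj x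
  rw [this, setIntegral_const]
  simp

/-- **Bessel** (in the form of summability): the squares of the coefficients of a bounded
continuous function with respect to pairwise distinct characters are summable. -/
theorem summable_coef_sq91 (hD : IsAddFundamentalDomain Γ D μ) (hfin : μ D ≠ ⊤)
    {ι : Type*} (χ : ι → G → ℂ) (hχ : ∀ i, IsChar91 Γ (χ i))
    (hdist : ∀ i j, i ≠ j → ∃ t, χ i t ≠ χ j t)
    (f : G → ℂ) (hfc : Continuous f) (C : ℝ) (hfb : ∀ x, ‖f x‖ ≤ C) :
    Summable fun i => ‖∫ x in D, f x * χ i x ∂μ‖ ^ 2 := by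
  classical
  have hfinm : IsFiniteMeasure (μ.restrict D) :=
    ⟨by rw [Measure.restrict_apply_univ]; exact lt_top_iff_ne_top.mpr hfin⟩
  by_cases hm0 : μ.real D = 0
  · have hD0 : μ D = 0 := by
      rcases (ENNReal.toReal_eq_zero_iff _).mp hm0 with h | h
      · exact h
      · exact absurd h hfin
    have hν0 : μ.restrict D = 0 := Measure.restrict_eq_zero.mpr hD0
    have : (fun i => ‖∫ x in D, f x * χ i x ∂μ‖ ^ 2) = fun _ => (0 : ℝ) := by
      funext i
      rw [hν0, integral_zero_measure]
      simp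
    rw [this]
    exact summable_zero
  · have hmpos : 0 < μ.real D := lt_of_le_of_ne measureReal_nonneg (Ne.symm hm0)
    have hmem : ∀ (u : G → ℂ), Continuous u → ∀ C : ℝ, (∀ x, ‖u x‖ ≤ C) →
        MemLp u 2 (μ.restrict D) :=
      fun u hu C hC => MemLp.of_bound hu.aestronglyMeasurable C (Eventually.of_forall hC)
    have hχmem : ∀ i, MemLp (fun x => conj (χ i x)) 2 (μ.restrict D) := fun i =>
      hmem _ (Complex.continuous_conj.comp (hχ i).cont) 1 (fun x => by
        rw [RCLike.norm_conj, (hχ i).norm x])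
    have hfmem : MemLp f 2 (μ.restrict D) := hmem f hfc C hfb
    let L : ι → Lp ℂ 2 (μ.restrict D) := fun i => (hχmem i).toLp _
    let Lf : Lp ℂ 2 (μ.restrict D) := hfmem.toLp f
    have hinner : ∀ i j, inner ℂ (L i) (L j) = ∫ x in D, χ i x * conj (χ j x) ∂μ := by
      intro i j
      rw [L2.inner_def]
      refine integral_congr_ae ?_
      filter_upwards [(hχmem i).coeFn_toLp, (hχmem j).coeFn_toLp] with x hx hy
      rw [hx, hy, RCLike.inner_apply, Complex.conj_conj, mul_comm]
    have hinnerf : ∀ i, inner ℂ (L i) Lf = ∫ x in D, f x * χ i x ∂μ := by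
      intro i
      rw [L2.inner_def]
      refine integral_congr_ae ?_
      filter_upwards [(hχmem i).coeFn_toLp, hfmem.coeFn_toLp] with x hx hy
      rw [hx, hy, RCLike.inner_apply, Complex.conj_conj]
    set r : ℝ := (Real.sqrt (μ.real D))⁻¹ with hr
    have hr2 : r * r * μ.real D = 1 := by
      have hs : Real.sqrt (μ.real D) * Real.sqrt (μ.real D) = μ.real D :=
        Real.mul_self_sqrt hmpos.le
      have hs0 : Real.sqrt (μ.real D) ≠ 0 := (Real.sqrt_pos.mpr hmpos).ne'
      rw [hr]
      calc (Real.sqrt (μ.real D))⁻¹ * (Real.sqrt (μ.real D))⁻¹ * μ.real D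
          = (Real.sqrt (μ.real D))⁻¹ * (Real.sqrt (μ.real D))⁻¹
              * (Real.sqrt (μ.real D) * Real.sqrt (μ.real D)) := by rw [hs]
        _ = 1 := by field_simp
    let e : ι → Lp ℂ 2 (μ.restrict D) := fun i => (r : ℂ) • L i
    have horth : Orthonormal ℂ e := by
      rw [orthonormal_iff_ite]
      intro i j
      simp only [e, inner_smul_left, inner_smul_right, hinner, Complex.conj_ofReal]
      by_cases hij : i = j
      · subst hij
        rw [if_pos rfl, setIntegral_char_self91 (hχ i), ← mul_assoc]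
        exact_mod_cast hr2
      · rw [if_neg hij]
        obtain ⟨t, ht⟩ := hdist i j hij
        rw [setIntegral_char_mul_conj91 hD (hχ i) (hχ j) ht, mul_zero, mul_zero]
    have hsum := horth.inner_products_summable Lf
    have hr0 : 0 ≤ r := by rw [hr]; exact inv_nonneg.mpr (Real.sqrt_nonneg _)
    have key : ∀ i, ‖∫ x in D, f x * χ i x ∂μ‖ ^ 2 = μ.real D * ‖inner ℂ (e i) Lf‖ ^ 2 := by
      intro i
      simp only [e, inner_smul_left, hinnerf, Complex.conj_ofReal]
      rw [norm_mul, mul_pow, Complex.norm_real, Real.norm_of_nonneg hr0, ← mul_assoc]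
      have : μ.real D * r ^ 2 = 1 := by rw [pow_two, mul_comm]; exact hr2
      rw [this, one_mul]
    simp_rw [key]
    exact hsum.mul_left _

/-- **Parseval** for a complete family of pairwise distinct characters of `G ⧸ Γ`. -/
theorem parseval_abstract91 (hD : IsAddFundamentalDomain Γ D μ) (hfin : μ D ≠ ⊤)
    {ι : Type*} [Countable ι] (χ : ι → G → ℂ) (hχ : ∀ i, IsChar91 Γ (χ i))
    (hdist : ∀ i j, i ≠ j → ∃ t, χ i t ≠ χ j t)
    (hcomp : ∀ F : G → ℂ, Continuous F → (∀ γ ∈ Γ, ∀ x, F (x + γ) = F x) →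
      (∀ i, ∫ x in D, F x * χ i x ∂μ = 0) → ∀ x, F x = 0)
    (f₁ f₂ : G → ℂ) (hc₁ : Continuous f₁) (hc₂ : Continuous f₂)
    (C₁ C₂ : ℝ) (hb₁ : ∀ x, ‖f₁ x‖ ≤ C₁) (hb₂ : ∀ x, ‖f₂ x‖ ≤ C₂)
    (hp₁ : ∀ γ ∈ Γ, ∀ x, f₁ (x + γ) = f₁ x) :
    Summable (fun i => ‖(∫ x in D, f₁ x * χ i x ∂μ) * conj (∫ x in D, f₂ x * χ i x ∂μ)‖) ∧
    (μ.real D : ℂ) * ∫ x in D, f₁ x * conj (f₂ x) ∂μ
      = ∑' i, (∫ x in D, f₁ x * χ i x ∂μ) * conj (∫ x in D, f₂ x * χ i x ∂μ) := by
  classical
  have hfinm : IsFiniteMeasure (μ.restrict D) :=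
    ⟨by rw [Measure.restrict_apply_univ]; exact lt_top_iff_ne_top.mpr hfin⟩
  set A₁ : ι → ℂ := fun i => ∫ x in D, f₁ x * χ i x ∂μ with hA₁
  set A₂ : ι → ℂ := fun i => ∫ x in D, f₂ x * χ i x ∂μ with hA₂
  set a : ι → ℂ := fun i => A₁ i * conj (A₂ i) with ha
  have hs₁ := summable_coef_sq91 hD hfin χ hχ hdist f₁ hc₁ C₁ hb₁
  have hs₂ := summable_coef_sq91 hD hfin χ hχ hdist f₂ hc₂ C₂ hb₂
  have hsa : Summable fun i => ‖a i‖ := by
    refine Summable.of_nonneg_of_le (fun i => norm_nonneg _) (fun i => ?_) (hs₁.add hs₂)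
    show ‖A₁ i * conj (A₂ i)‖ ≤ ‖A₁ i‖ ^ 2 + ‖A₂ i‖ ^ 2
    rw [norm_mul, RCLike.norm_conj]
    nlinarith [sq_nonneg (‖A₁ i‖ - ‖A₂ i‖), norm_nonneg (A₁ i), norm_nonneg (A₂ i)]
  refine ⟨hsa, ?_⟩
  have hC₁ : 0 ≤ C₁ := le_trans (norm_nonneg _) (hb₁ 0)
  have hC₂ : 0 ≤ C₂ := le_trans (norm_nonneg _) (hb₂ 0)
  by_cases hm0 : μ.real D = 0
  · have hD0 : μ D = 0 := by
      rcases (ENNReal.toReal_eq_zero_iff _).mp hm0 with h | h
      · exact h
      · exact absurd h hfin
    have hν0 : μ.restrict D = 0 := Measure.restrict_eq_zero.mpr hD0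
    have hA0 : ∀ i, a i = 0 := by
      intro i
      show (∫ x in D, f₁ x * χ i x ∂μ) * conj (∫ x in D, f₂ x * χ i x ∂μ) = 0
      rw [hν0, integral_zero_measure, zero_mul]
    have ha0 : a = fun _ => (0 : ℂ) := funext hA0
    rw [hm0, ha0, tsum_zero, Complex.ofReal_zero, zero_mul]
  have hmpos : 0 < μ.real D := lt_of_le_of_ne measureReal_nonneg (Ne.symm hm0)
  have hmC : (μ.real D : ℂ) ≠ 0 := by exact_mod_cast hmpos.ne'
  -- the autocorrelation
  let h : G → ℂ := fun t => ∫ x in D, f₁ (x + t) * conj (f₂ x) ∂μ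
  have hh_cont : Continuous h := by
    refine continuous_of_dominated (bound := fun _ => C₁ * C₂) ?_ ?_ ?_ ?_
    · intro t
      exact ((hc₁.comp (continuous_id.add continuous_const)).mul
        (Complex.continuous_conj.comp hc₂)).aestronglyMeasurable
    · intro t
      refine Eventually.of_forall fun x => ?_
      rw [norm_mul, RCLike.norm_conj]
      exact mul_le_mul (hb₁ _) (hb₂ _) (norm_nonneg _) hC₁
    · exact integrable_const _
    · exact Eventually.of_forall fun x =>
        (hc₁.comp (continuous_const.add continuous_id)).mul continuous_const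
  have hh_per : ∀ γ ∈ Γ, ∀ t, h (t + γ) = h t := by
    intro γ hγ t
    show ∫ x in D, f₁ (x + (t + γ)) * conj (f₂ x) ∂μ = ∫ x in D, f₁ (x + t) * conj (f₂ x) ∂μ
    refine integral_congr_ae (Eventually.of_forall fun x => ?_)
    show f₁ (x + (t + γ)) * conj (f₂ x) = f₁ (x + t) * conj (f₂ x)
    rw [← add_assoc, hp₁ γ hγ]
  have hper₁ : ∀ i, ∀ γ ∈ Γ, ∀ x, f₁ (x + γ) * χ i (x + γ) = f₁ x * χ i x := by
    intro i γ hγ x
    rw [hp₁ γ hγ, (hχ i).periodic γ hγ]
  have hh_coef : ∀ i, ∫ t in D, h t * χ i t ∂μ = a i := by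
    intro i
    have hint : Integrable (Function.uncurry fun (t x : G) => f₁ (x + t) * conj (f₂ x) * χ i t)
        ((μ.restrict D).prod (μ.restrict D)) := by
      refine Integrable.of_bound ?_ (C₁ * C₂) (Eventually.of_forall fun p => ?_)
      · have hcont : Continuous (Function.uncurry fun (t x : G) =>
            f₁ (x + t) * conj (f₂ x) * χ i t) := by
          show Continuous fun p : G × G => f₁ (p.2 + p.1) * conj (f₂ p.2) * χ i p.1
          exact ((hc₁.comp (continuous_snd.add continuous_fst)).mul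
            (Complex.continuous_conj.comp (hc₂.comp continuous_snd))).mul
            ((hχ i).cont.comp continuous_fst)
        exact hcont.aestronglyMeasurable
      · show ‖f₁ (p.2 + p.1) * conj (f₂ p.2) * χ i p.1‖ ≤ C₁ * C₂
        rw [norm_mul, norm_mul, RCLike.norm_conj, (hχ i).norm, mul_one]
        exact mul_le_mul (hb₁ _) (hb₂ _) (norm_nonneg _) hC₁
    calc ∫ t in D, h t * χ i t ∂μ
        = ∫ t in D, ∫ x in D, f₁ (x + t) * conj (f₂ x) * χ i t ∂μ ∂μ := by
          refine integral_congr_ae (Eventually.of_forall fun t => ?_)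
          exact (integral_mul_const _ _).symm
      _ = ∫ x in D, ∫ t in D, f₁ (x + t) * conj (f₂ x) * χ i t ∂μ ∂μ :=
          integral_integral_swap hint
      _ = ∫ x in D, conj (f₂ x) * conj (χ i x) * A₁ i ∂μ := by
          refine integral_congr_ae (Eventually.of_forall fun x => ?_)
          have h1 : ∫ t in D, f₁ (x + t) * conj (f₂ x) * χ i t ∂μ
              = conj (f₂ x) * conj (χ i x) * ∫ t in D, f₁ (t + x) * χ i (t + x) ∂μ := by
            rw [← integral_const_mul]
            refine integral_congr_ae (Eventually.of_forall fun t => ?_)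
            show f₁ (x + t) * conj (f₂ x) * χ i t
              = conj (f₂ x) * conj (χ i x) * (f₁ (t + x) * χ i (t + x))
            rw [(hχ i).add t x, add_comm x t]
            have hcm := (hχ i).conj_mul x
            linear_combination (-(f₁ (t + x) * conj (f₂ x) * χ i t)) * hcm
          show ∫ t in D, f₁ (x + t) * conj (f₂ x) * χ i t ∂μ = conj (f₂ x) * conj (χ i x) * A₁ i
          rw [h1, setIntegral_add_right91 Γ μ D hD (fun y => f₁ y * χ i y) (hper₁ i) x]
      _ = a i := by
          rw [integral_mul_const]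
          have h2 : ∫ x in D, conj (f₂ x) * conj (χ i x) ∂μ = conj (A₂ i) := by
            rw [hA₂, ← integral_conj]
            refine integral_congr_ae (Eventually.of_forall fun x => ?_)
            show conj (f₂ x) * conj (χ i x) = conj (f₂ x * χ i x)
            rw [map_mul]
          rw [h2, ha]
          ring
  -- the Fourier series
  let S : G → ℂ := fun t => ∑' i, a i * conj (χ i t)
  have hS_cont : Continuous S :=
    continuous_tsum (fun i => continuous_const.mul (Complex.continuous_conj.comp (hχ i).cont))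
      hsa (fun i t => by rw [norm_mul, RCLike.norm_conj, (hχ i).norm, mul_one])
  have hS_per : ∀ γ ∈ Γ, ∀ t, S (t + γ) = S t := by
    intro γ hγ t
    show ∑' i, a i * conj (χ i (t + γ)) = ∑' i, a i * conj (χ i t)
    refine tsum_congr fun i => ?_
    rw [(hχ i).periodic γ hγ]
  have hS_coef : ∀ j, ∫ t in D, S t * χ j t ∂μ = a j * (μ.real D : ℂ) := by
    intro j
    have h1 : ∀ t, S t * χ j t = ∑' i, a i * conj (χ i t) * χ j t := by
      intro t
      show (∑' i, a i * conj (χ i t)) * χ j t = _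
      rw [tsum_mul_right]
    have hFint : ∀ i, Integrable (fun t => a i * conj (χ i t) * χ j t) (μ.restrict D) := by
      intro i
      refine Integrable.of_bound ?_ ‖a i‖ (Eventually.of_forall fun t => ?_)
      · exact ((continuous_const.mul (Complex.continuous_conj.comp (hχ i).cont)).mul
          (hχ j).cont).aestronglyMeasurable
      · rw [norm_mul, norm_mul, RCLike.norm_conj, (hχ i).norm, (hχ j).norm, mul_one, mul_one]
    have hFnorm : ∀ i, ∫ t in D, ‖a i * conj (χ i t) * χ j t‖ ∂μ = ‖a i‖ * μ.real D := by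
      intro i
      have : (fun t => ‖a i * conj (χ i t) * χ j t‖) = fun _ => ‖a i‖ := by
        funext t
        rw [norm_mul, norm_mul, RCLike.norm_conj, (hχ i).norm, (hχ j).norm, mul_one, mul_one]
      rw [this, setIntegral_const, smul_eq_mul, mul_comm]
    have hFsum : Summable fun i => ∫ t in D, ‖a i * conj (χ i t) * χ j t‖ ∂μ := by
      simp_rw [hFnorm]
      exact hsa.mul_right _
    have h2 : ∀ i, ∫ t in D, a i * conj (χ i t) * χ j t ∂μ
        = if i = j then a j * (μ.real D : ℂ) else 0 := by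
      intro i
      have h3 : ∫ t in D, a i * conj (χ i t) * χ j t ∂μ
          = a i * ∫ t in D, χ j t * conj (χ i t) ∂μ := by
        rw [← integral_const_mul]
        refine integral_congr_ae (Eventually.of_forall fun t => ?_)
        show a i * conj (χ i t) * χ j t = a i * (χ j t * conj (χ i t))
        ring
      rw [h3]
      by_cases hij : i = j
      · subst hij
        rw [if_pos rfl, setIntegral_char_self91 (hχ i)]
      · rw [if_neg hij]
        obtain ⟨t, ht⟩ := hdist j i (Ne.symm hij)
        rw [setIntegral_char_mul_conj91 hD (hχ j) (hχ i) ht, mul_zero]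
    calc ∫ t in D, S t * χ j t ∂μ
        = ∫ t in D, ∑' i, a i * conj (χ i t) * χ j t ∂μ := by
          refine integral_congr_ae (Eventually.of_forall fun t => ?_)
          exact h1 t
      _ = ∑' i, ∫ t in D, a i * conj (χ i t) * χ j t ∂μ :=
          (integral_tsum_of_summable_integral_norm hFint hFsum).symm
      _ = ∑' i, if i = j then a j * (μ.real D : ℂ) else 0 := tsum_congr h2
      _ = a j * (μ.real D : ℂ) := tsum_ite_eq j _
  -- completeness
  have hSb : ∀ t, ‖S t‖ ≤ ∑' i, ‖a i‖ := by
    intro t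
    have hsum : Summable fun i => ‖a i * conj (χ i t)‖ := by
      have : (fun i => ‖a i * conj (χ i t)‖) = fun i => ‖a i‖ := by
        funext i
        rw [norm_mul, RCLike.norm_conj, (hχ i).norm, mul_one]
      rw [this]
      exact hsa
    refine le_trans (norm_tsum_le_tsum_norm hsum) (le_of_eq ?_)
    refine tsum_congr fun i => ?_
    rw [norm_mul, RCLike.norm_conj, (hχ i).norm, mul_one]
  have hzero := hcomp (fun t => (μ.real D : ℂ) * h t - S t)
    ((continuous_const.mul hh_cont).sub hS_cont)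
    (fun γ hγ t => by
      show (μ.real D : ℂ) * h (t + γ) - S (t + γ) = (μ.real D : ℂ) * h t - S t
      rw [hh_per γ hγ, hS_per γ hγ])
    (fun i => by
      have hi1 : Integrable (fun t => (μ.real D : ℂ) * h t * χ i t) (μ.restrict D) := by
        refine Integrable.of_bound ?_ (μ.real D * (C₁ * C₂ * μ.real D))
          (Eventually.of_forall fun t => ?_)
        · exact ((continuous_const.mul hh_cont).mul (hχ i).cont).aestronglyMeasurable
        · rw [norm_mul, norm_mul, (hχ i).norm, mul_one, Complex.norm_real,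
            Real.norm_of_nonneg hmpos.le]
          refine mul_le_mul_of_nonneg_left ?_ hmpos.le
          refine norm_setIntegral_le_of_norm_le_const (lt_top_iff_ne_top.mpr hfin)
            (fun x _ => ?_) |>.trans (le_of_eq rfl)
          rw [norm_mul, RCLike.norm_conj]
          exact mul_le_mul (hb₁ _) (hb₂ _) (norm_nonneg _) hC₁
      have hi2 : Integrable (fun t => S t * χ i t) (μ.restrict D) := by
        refine Integrable.of_bound ?_ (∑' i, ‖a i‖) (Eventually.of_forall fun t => ?_)
        · exact (hS_cont.mul (hχ i).cont).aestronglyMeasurable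
        · rw [norm_mul, (hχ i).norm, mul_one]
          exact hSb t
      have hsplit : (fun t => ((μ.real D : ℂ) * h t - S t) * χ i t)
          = fun t => (μ.real D : ℂ) * h t * χ i t - S t * χ i t := by
        funext t
        ring
      rw [hsplit, integral_sub hi1 hi2, hS_coef i]
      have : ∫ t in D, (μ.real D : ℂ) * h t * χ i t ∂μ = (μ.real D : ℂ) * a i := by
        rw [← hh_coef i, ← integral_const_mul]
        refine integral_congr_ae (Eventually.of_forall fun t => ?_)
        show (μ.real D : ℂ) * h t * χ i t = (μ.real D : ℂ) * (h t * χ i t)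
        ring
      rw [this]
      ring)
  have h0 := hzero 0
  have hh0 : h 0 = ∫ x in D, f₁ x * conj (f₂ x) ∂μ := by
    show ∫ x in D, f₁ (x + 0) * conj (f₂ x) ∂μ = _
    simp only [add_zero]
  have hS0 : S 0 = ∑' i, a i := by
    show ∑' i, a i * conj (χ i 0) = _
    refine tsum_congr fun i => ?_
    rw [(hχ i).zero, map_one, mul_one]
  have h0' : (μ.real D : ℂ) * h 0 - S 0 = 0 := h0
  rw [hh0, hS0] at h0'
  exact sub_eq_zero.mp h0'

end Abstract

end Fermat.Agent.LT.T7.H91
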