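import Mathlib
import Fermat.Agent.LT.T3.Spec
import Fermat.Agent.LT.T7.H91.ParsevalAbs

/-!
# Row LT, tower T7, ASSIST for leaf T7.14.6a `FoldWhitC`, step (4): PARSEVAL on `𝔸_K / K` (helper91)

OFF-MAIN.  Registry row 1801.  On `T3/Spec.lean` v2 (sha256 44de320b, byte-identical copy) and
`ParsevalAbs.lean` (Mathlib only).

* `coefAd91 ψ ν D f η = ∫_D f(x) conj ψ(η x) dν(x)`, the `η`-th Fourier coefficient (`η ∈ K`).
* `ParsevalAdC91 K` (typed Prop) and `parsevalAdC91 : T3.InLocCompC K → T3.CompleteNDC K →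
  ParsevalAdC91 K`: for `ψ` standard non-degenerate, `ν` Haar, `D` a fundamental domain of finite
  measure, `f₁`, `f₂` continuous and bounded, `f₁` `K`-periodic:
  `∑_η |c_η(f₁) conj c_η(f₂)| < ∞` and `ν(D) ∫_D f₁ f̄₂ dν = ∑_{η ∈ K} c_η(f₁) conj c_η(f₂)`.
-/

set_option autoImplicit false
set_option linter.unusedSectionVars false
set_option linter.style.haveILetI false

open IsDedekindDomain NumberField MeasureTheory ComplexConjugate
open Fermat.Agent.LT.H556.A0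

noncomputable section

namespace Fermat.Agent.LT.T7.H91

open Fermat.Agent.LT.T3

variable {K : Type} [Field K] [NumberField K]

/-- The character `x ↦ conj ψ(η x)` of `𝔸_K`, `η ∈ K`. -/
def chi91 (ψ : AddChar (Adl K) Circle) (η : K) (x : Adl K) : ℂ :=
  conj ((ψ (emb K η * x) : Circle) : ℂ)

/-- The `η`-th Fourier coefficient `∫_D f(x) conj ψ(η x) dν(x)`. -/
def coefAd91 {m : MeasurableSpace (Adl K)} (ψ : AddChar (Adl K) Circle) (ν : Measure (Adl K))
    (D : Set (Adl K)) (f : Adl K → ℂ) (η : K) : ℂ :=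
  ∫ x in D, f x * conj ((ψ (emb K η * x) : Circle) : ℂ) ∂ν

theorem isChar_chi91 {ψ : AddChar (Adl K) Circle} (hψ : IsStdChar K ψ) (η : K) :
    IsChar91 ((algebraMap K (Adl K)).toAddMonoidHom.range) (chi91 ψ η) where
  cont := Complex.continuous_conj.comp
    (continuous_subtype_val.comp (hψ.cont.comp (continuous_const.mul continuous_id)))
  add x y := by
    show conj ((ψ (emb K η * (x + y)) : Circle) : ℂ)
      = conj ((ψ (emb K η * x) : Circle) : ℂ) * conj ((ψ (emb K η * y) : Circle) : ℂ)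
    rw [mul_add, AddChar.map_add_eq_mul, Circle.coe_mul, map_mul]
  norm x := by
    show ‖conj ((ψ (emb K η * x) : Circle) : ℂ)‖ = 1
    rw [RCLike.norm_conj, Circle.norm_coe]
  triv γ hγ := by
    obtain ⟨ξ, rfl⟩ := hγ
    show conj ((ψ (emb K η * emb K ξ) : Circle) : ℂ) = 1
    rw [← map_mul, hψ.triv, Circle.coe_one, map_one]

theorem chi91_distinct {ψ : AddChar (Adl K) Circle} (hψ : IsStdChar K ψ) (η η' : K)
    (h : η ≠ η') : ∃ t : Adl K, chi91 ψ η t ≠ chi91 ψ η' t := by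
  obtain ⟨y, hy⟩ := hψ.nontriv
  have hne : η - η' ≠ 0 := sub_ne_zero.mpr h
  refine ⟨emb K (η - η')⁻¹ * y, fun heq => hy ?_⟩
  have h1 : ψ (emb K η * (emb K (η - η')⁻¹ * y)) = ψ (emb K η' * (emb K (η - η')⁻¹ * y)) := by
    have h2 := (starRingEnd ℂ).injective heq
    exact Circle.coe_injective h2
  have h3 : y = emb K η * (emb K (η - η')⁻¹ * y) + -(emb K η' * (emb K (η - η')⁻¹ * y)) := by
    have h4 : emb K (η - η') * emb K (η - η')⁻¹ = 1 := by
      rw [← map_mul, mul_inv_cancel₀ hne, map_one]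
    have h5 : emb K (η - η') = emb K η - emb K η' := map_sub _ _ _
    calc y = (emb K (η - η') * emb K (η - η')⁻¹) * y := by rw [h4, one_mul]
      _ = _ := by rw [h5]; ring
  rw [h3, AddChar.map_add_eq_mul, AddChar.map_neg_eq_inv, h1, mul_inv_cancel]

variable (K)

/-- **PARSEVAL on `𝔸_K / K`** (typed form). -/
def ParsevalAdC91 : Prop :=
  letI : MeasurableSpace (Adl K) := borel (Adl K)
  ∀ ψ : AddChar (Adl K) Circle, IsStdChar K ψ → IsNonDeg K ψ →
  ∀ (ν : Measure (Adl K)) (D : Set (Adl K)), ν.IsAddHaarMeasure →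
    IsAddFundamentalDomain ((algebraMap K (Adl K)).toAddMonoidHom.range) D ν → ν D < ⊤ →
  ∀ f₁ f₂ : Adl K → ℂ, Continuous f₁ → Continuous f₂ →
    (∃ C : ℝ, ∀ x, ‖f₁ x‖ ≤ C) → (∃ C : ℝ, ∀ x, ‖f₂ x‖ ≤ C) →
    (∀ (ξ : K) (x : Adl K), f₁ (x + emb K ξ) = f₁ x) →
      Summable (fun η : K => ‖coefAd91 ψ ν D f₁ η * conj (coefAd91 ψ ν D f₂ η)‖) ∧
      (ν.real D : ℂ) * ∫ x in D, f₁ x * conj (f₂ x) ∂ν
        = ∑' η : K, coefAd91 ψ ν D f₁ η * conj (coefAd91 ψ ν D f₂ η)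

/-- **PARSEVAL on `𝔸_K / K`** from the completeness of the characters (`T3.CompleteNDC`). -/
theorem parsevalAdC91 (hLC : InLocCompC K) (hC : CompleteNDC K) : ParsevalAdC91 K := by
  letI : MeasurableSpace (Adl K) := borel (Adl K)
  haveI : BorelSpace (Adl K) := ⟨rfl⟩
  obtain ⟨⟨_, _, hsc⟩, -⟩ := hLC
  haveI := hsc
  haveI : Countable K := Finsupp.Countable.of_moduleFinite (R := ℚ) (M := K)
  haveI : Countable ((algebraMap K (Adl K)).toAddMonoidHom.range) := by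
    have h : (Set.range (algebraMap K (Adl K))).Countable := Set.countable_range _
    exact h.to_subtype
  intro ψ hψ hnd ν D hν hD hfin f₁ f₂ hc₁ hc₂ ⟨C₁, hb₁⟩ ⟨C₂, hb₂⟩ hp₁
  haveI := hν
  have hcomp : ∀ F : Adl K → ℂ, Continuous F →
      (∀ γ ∈ (algebraMap K (Adl K)).toAddMonoidHom.range, ∀ x, F (x + γ) = F x) →
      (∀ η : K, ∫ x in D, F x * chi91 ψ η x ∂ν = 0) → ∀ x, F x = 0 := by
    intro F hFc hFp hF0
    refine hC ψ hψ hnd ν hν D hD F hFc (fun ξ x => hFp _ ⟨ξ, rfl⟩ x) (fun η => ?_)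
    rw [← hF0 (-η)]
    refine integral_congr_ae (Filter.Eventually.of_forall fun x => ?_)
    show F x * ((ψ (x * emb K η) : Circle) : ℂ) = F x * conj ((ψ (emb K (-η) * x) : Circle) : ℂ)
    have : emb K (-η) * x = -(x * emb K η) := by
      rw [map_neg, neg_mul, mul_comm]
    rw [this, AddChar.map_neg_eq_inv, Circle.coe_inv_eq_conj, Complex.conj_conj]
  exact parseval_abstract91 hD hfin.ne (chi91 ψ) (isChar_chi91 hψ) (chi91_distinct hψ) hcomp
    f₁ f₂ hc₁ hc₂ C₁ C₂ hb₁ hb₂ (fun γ hγ x => by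
      obtain ⟨ξ, rfl⟩ := hγ
      exact hp₁ ξ x)

end Fermat.Agent.LT.T7.H91
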