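import Mathlib
import Fermat.Agent.LT.T3.H354.HaarScale
import Fermat.Agent.LT.T7.H62.RigidStrip
import Fermat.Agent.LT.T7.H91.ParsevalAd

/-!
# Row LT, tower T7, ASSIST for leaf T7.14.6a `FoldWhitC`, step (4): PARSEVAL, WHITTAKER FORM
(helper91)

OFF-MAIN.  Registry row 1801.  On `T7/H62/RigidStrip.lean` (helper62@3eb009f31, sha256 9f2a8c04),
`T3/Spec.lean` v2 (44de320b), `T3/H354/HaarScale.lean` (helper354@386a4f08b, a806a6e8; only the
maps `mulAdl`, `mulPrinc` are used), all byte-identical copies.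

* `whit_torK91`: for `φ` left invariant under `GL₂(K)`:
  `W_φ(torK α · g) = ∫_D φ(n(x) g) conj ψ(α x) dν(x)` (the `α`-th Fourier coefficient of
  `x ↦ φ(n(x) g)`; `n(x) a(α) = a(α) n(α⁻¹ x)`, `T3.HaarScaleC`, change of fundamental domain).
* `ParsevalWhitC91 K` (typed Prop) and
  `parsevalWhitC91 : T3.InLocCompC K → T3.CompleteNDC K → T3.HaarScaleC K → ParsevalWhitC91 K`:
  for `φ₁`, `φ₂` continuous, bounded, left invariant under `GL₂(K)`, `φ₁` cuspidal, and every `g`: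
  `∑_α |W₁ W̄₂(torK α · g)| < ∞` and
  `ν(D) ∫_D φ₁(n(x) g) conj φ₂(n(x) g) dν(x) = ∑_{α ∈ Kˣ} W₁(torK α · g) conj W₂(torK α · g)`.
-/

set_option autoImplicit false
set_option linter.unusedSectionVars false
set_option linter.style.haveILetI false

open IsDedekindDomain NumberField MeasureTheory ComplexConjugate
open Fermat.Agent.LT.H556.A0

noncomputable section

namespace Fermat.Agent.LT.T7.H91

open Fermat.Agent.LT.T3 Fermat.Agent.LT.T7.Rigid Matrix

variable {K : Type} [Field K] [NumberField K]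

/-- `n(ξ)` in `GL₂(K)`. -/
def unipK91 (ξ : K) : GL (Fin 2) K :=
  ⟨!![1, ξ; 0, 1], !![1, -ξ; 0, 1],
    by ext i j; fin_cases i <;> fin_cases j <;> simp [Matrix.mul_apply, Fin.sum_univ_two],
    by ext i j; fin_cases i <;> fin_cases j <;> simp [Matrix.mul_apply, Fin.sum_univ_two]⟩

/-- `diag(α, 1)` in `GL₂(K)`. -/
def diagK91 (α : Kˣ) : GL (Fin 2) K :=
  ⟨!![(α : K), 0; 0, 1], !![((α⁻¹ : Kˣ) : K), 0; 0, 1],
    by ext i j; fin_cases i <;> fin_cases j <;> simp [Matrix.mul_apply, Fin.sum_univ_two],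
    by ext i j; fin_cases i <;> fin_cases j <;> simp [Matrix.mul_apply, Fin.sum_univ_two]⟩

theorem map_unipK91_mul (ξ : K) (x : Adl K) :
    Matrix.GeneralLinearGroup.map (algebraMap K (Adl K)) (unipK91 ξ) * unip K x
      = unip K (x + emb K ξ) := by
  apply Units.ext
  rw [Units.val_mul]
  ext i j
  fin_cases i <;> fin_cases j <;>
    simp [unipK91, unip, Matrix.mul_apply, Fin.sum_univ_two, add_comm]

theorem map_diagK91 (α : Kˣ) :
    Matrix.GeneralLinearGroup.map (algebraMap K (Adl K)) (diagK91 α) = torK K α := by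
  apply Units.ext
  ext i j
  fin_cases i <;> fin_cases j <;> simp [diagK91, torK]

theorem unip_mul_torK91 (α : Kˣ) (x : Adl K) :
    unip K x * torK K α = torK K α * unip K (emb K ((α⁻¹ : Kˣ) : K) * x) := by
  apply Units.ext
  rw [Units.val_mul, Units.val_mul]
  ext i j
  fin_cases i <;> fin_cases j <;>
    simp [unip, torK, Matrix.mul_apply, Fin.sum_univ_two, ← mul_assoc, ← map_mul]

theorem continuous_unip91 : Continuous (unip K : Adl K → G K) := by
  rw [Units.continuous_iff]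
  constructor
  · refine continuous_matrix fun i j => ?_
    fin_cases i <;> fin_cases j <;> simp [unip] <;> fun_prop
  · refine continuous_matrix fun i j => ?_
    fin_cases i <;> fin_cases j <;> simp [unip] <;> fun_prop

/-- `x ↦ φ(n(x) g)` is `K`-periodic for `φ` left invariant under `GL₂(K)`. -/
theorem periodic_unip91 {φ : G K → ℂ}
    (hl : ∀ (γ : GL (Fin 2) K) (g : G K),
      φ (Matrix.GeneralLinearGroup.map (algebraMap K (Adl K)) γ * g) = φ g)
    (g : G K) (ξ : K) (x : Adl K) : φ (unip K (x + emb K ξ) * g) = φ (unip K x * g) := by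
  rw [← map_unipK91_mul, mul_assoc, hl]

/-- The Whittaker function at `torK α · g` is the `α`-th Fourier coefficient of
`x ↦ φ(n(x) g)`. -/
theorem whit_torK91 (hLC : InLocCompC K) (hS : HaarScaleC K) :
    letI : MeasurableSpace (Adl K) := borel (Adl K)
    ∀ ψ : AddChar (Adl K) Circle, IsStdChar K ψ →
    ∀ (ν : Measure (Adl K)) (D : Set (Adl K)), ν.IsAddHaarMeasure →
      IsAddFundamentalDomain ((algebraMap K (Adl K)).toAddMonoidHom.range) D ν →
    ∀ φ : G K → ℂ,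
      (∀ (γ : GL (Fin 2) K) (g : G K),
        φ (Matrix.GeneralLinearGroup.map (algebraMap K (Adl K)) γ * g) = φ g) →
    ∀ (α : Kˣ) (g : G K),
      whit ψ ν D φ (torK K α * g) = coefAd91 ψ ν D (fun x => φ (unip K x * g)) (α : K) := by
  letI : MeasurableSpace (Adl K) := borel (Adl K)
  haveI : BorelSpace (Adl K) := ⟨rfl⟩
  obtain ⟨⟨_, _, hsc⟩, -⟩ := hLC
  haveI := hsc
  haveI := H354.countable_princ354 K
  intro ψ hψ ν D hν hD φ hl α g
  haveI := hν
  -- multiplication by `α⁻¹`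
  set e := H354.mulAdl K α⁻¹ with he
  have hmeas : Measurable e := (H354.continuous_mulAdl K α⁻¹).measurable
  have hmp : MeasurePreserving e ν ν := ⟨hmeas, hS ν hν α⁻¹⟩
  have hemb : MeasurableEmbedding e :=
    (Homeomorph.mk e.toEquiv (H354.continuous_mulAdl K α⁻¹)
      (H354.continuous_mulAdl_symm K α⁻¹)).measurableEmbedding
  have hD' : IsAddFundamentalDomain (H354.princ354 K) (e ⁻¹' D) ν := by
    refine hD.preimage_of_equiv hmp.quasiMeasurePreserving (H354.mulPrinc_bijective K α⁻¹) ?_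
    intro γ x
    show e (H354.mulPrinc K α⁻¹ γ +ᵥ x) = γ +ᵥ e x
    show emb K ((α⁻¹ : Kˣ) : K) * (emb K (((α⁻¹)⁻¹ : Kˣ) : K) * (γ : Adl K) + x)
      = (γ : Adl K) + emb K ((α⁻¹ : Kˣ) : K) * x
    rw [mul_add, ← mul_assoc, ← map_mul]
    simp
  -- the periodic function
  set F : Adl K → ℂ := fun u => φ (unip K u * g) * conj ((ψ (emb K (α : K) * u) : Circle) : ℂ)
    with hF
  have hFper : ∀ (ξ : K) (u : Adl K), F (u + emb K ξ) = F u := by
    intro ξ u
    show φ (unip K (u + emb K ξ) * g) * conj ((ψ (emb K (α : K) * (u + emb K ξ)) : Circle) : ℂ)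
      = φ (unip K u * g) * conj ((ψ (emb K (α : K) * u) : Circle) : ℂ)
    have h : emb K (α : K) * (u + emb K ξ) = emb K (α : K) * u + emb K ((α : K) * ξ) := by
      rw [mul_add, map_mul]
    rw [periodic_unip91 hl, h, AddChar.map_add_eq_mul, hψ.triv, mul_one]
  have h1 : ∀ x : Adl K,
      φ (unip K x * (torK K α * g)) * conj ((ψ x : Circle) : ℂ) = F (e x) := by
    intro x
    show _ = φ (unip K (emb K ((α⁻¹ : Kˣ) : K) * x) * g)
      * conj ((ψ (emb K (α : K) * (emb K ((α⁻¹ : Kˣ) : K) * x)) : Circle) : ℂ)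
    have h2 : emb K (α : K) * (emb K ((α⁻¹ : Kˣ) : K) * x) = x := by
      rw [← mul_assoc, ← map_mul]
      simp
    rw [h2, ← mul_assoc, unip_mul_torK91, ← map_diagK91, mul_assoc, hl]
  have h3 : ∫ x in D, F (e x) ∂ν = ∫ x in e ⁻¹' D, F (e x) ∂ν := by
    refine hD.setIntegral_eq hD' (fun γ x => ?_)
    obtain ⟨ξ, hξ⟩ := γ.2
    show F (e ((γ : Adl K) + x)) = F (e x)
    have h4 : e ((γ : Adl K) + x) = e x + emb K (((α⁻¹ : Kˣ) : K) * ξ) := by
      show emb K ((α⁻¹ : Kˣ) : K) * ((γ : Adl K) + x)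
        = emb K ((α⁻¹ : Kˣ) : K) * x + emb K (((α⁻¹ : Kˣ) : K) * ξ)
      rw [mul_add, add_comm, map_mul]
      congr 2
      exact hξ.symm
    rw [h4, hFper]
  have h5 : ∫ x in e ⁻¹' D, F (e x) ∂ν = ∫ y in D, F y ∂ν :=
    hmp.setIntegral_preimage_emb hemb F D
  show ∫ x in D, φ (unip K x * (torK K α * g)) * conj ((ψ x : Circle) : ℂ) ∂ν
    = ∫ x in D, φ (unip K x * g) * conj ((ψ (emb K (α : K) * x) : Circle) : ℂ) ∂ν
  calc ∫ x in D, φ (unip K x * (torK K α * g)) * conj ((ψ x : Circle) : ℂ) ∂ν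
      = ∫ x in D, F (e x) ∂ν :=
        integral_congr_ae (Filter.Eventually.of_forall fun x => h1 x)
    _ = ∫ y in D, F y ∂ν := by rw [h3, h5]

variable (K)

/-- **PARSEVAL, WHITTAKER FORM** (typed form of step (4) of `FoldWhitC`). -/
def ParsevalWhitC91 : Prop :=
  letI : MeasurableSpace (Adl K) := borel (Adl K)
  ∀ ψ : AddChar (Adl K) Circle, IsStdChar K ψ → IsNonDeg K ψ →
  ∀ (ν : Measure (Adl K)) (D : Set (Adl K)), ν.IsAddHaarMeasure →
    IsAddFundamentalDomain ((algebraMap K (Adl K)).toAddMonoidHom.range) D ν → ν D < ⊤ →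
  ∀ φ₁ φ₂ : G K → ℂ, Continuous φ₁ → Continuous φ₂ →
    (∃ C : ℝ, ∀ g : G K, ‖φ₁ g‖ ≤ C) → (∃ C : ℝ, ∀ g : G K, ‖φ₂ g‖ ≤ C) →
    (∀ (γ : GL (Fin 2) K) (g : G K),
      φ₁ (Matrix.GeneralLinearGroup.map (algebraMap K (Adl K)) γ * g) = φ₁ g) →
    (∀ (γ : GL (Fin 2) K) (g : G K),
      φ₂ (Matrix.GeneralLinearGroup.map (algebraMap K (Adl K)) γ * g) = φ₂ g) →
    IsCuspidalFn φ₁ →
    ∀ g : G K,
      Summable (fun α : Kˣ =>
        ‖whit ψ ν D φ₁ (torK K α * g) * conj (whit ψ ν D φ₂ (torK K α * g))‖) ∧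
      (ν.real D : ℂ) * ∫ x in D, φ₁ (unip K x * g) * conj (φ₂ (unip K x * g)) ∂ν
        = ∑' α : Kˣ, whit ψ ν D φ₁ (torK K α * g) * conj (whit ψ ν D φ₂ (torK K α * g))

/-- **PARSEVAL, WHITTAKER FORM**, from `T3.CompleteNDC` and `T3.HaarScaleC`. -/
theorem parsevalWhitC91 (hLC : InLocCompC K) (hC : CompleteNDC K) (hS : HaarScaleC K) :
    ParsevalWhitC91 K := by
  letI : MeasurableSpace (Adl K) := borel (Adl K)
  haveI : BorelSpace (Adl K) := ⟨rfl⟩
  intro ψ hψ hnd ν D hν hD hfin φ₁ φ₂ hc₁ hc₂ ⟨C₁, hb₁⟩ ⟨C₂, hb₂⟩ hl₁ hl₂ hcusp g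
  set f₁ : Adl K → ℂ := fun x => φ₁ (unip K x * g) with hf₁
  set f₂ : Adl K → ℂ := fun x => φ₂ (unip K x * g) with hf₂
  have hfc₁ : Continuous f₁ := hc₁.comp (continuous_unip91.mul continuous_const)
  have hfc₂ : Continuous f₂ := hc₂.comp (continuous_unip91.mul continuous_const)
  obtain ⟨hsum, heq⟩ := parsevalAdC91 K hLC hC ψ hψ hnd ν D hν hD hfin f₁ f₂ hfc₁ hfc₂
    ⟨C₁, fun x => hb₁ _⟩ ⟨C₂, fun x => hb₂ _⟩ (fun ξ x => periodic_unip91 hl₁ g ξ x)
  have hw₁ : ∀ α : Kˣ, whit ψ ν D φ₁ (torK K α * g) = coefAd91 ψ ν D f₁ (α : K) :=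
    fun α => whit_torK91 hLC hS ψ hψ ν D hν hD φ₁ hl₁ α g
  have hw₂ : ∀ α : Kˣ, whit ψ ν D φ₂ (torK K α * g) = coefAd91 ψ ν D f₂ (α : K) :=
    fun α => whit_torK91 hLC hS ψ hψ ν D hν hD φ₂ hl₂ α g
  -- the constant term vanishes
  have hzero : coefAd91 ψ ν D f₁ 0 = 0 := by
    show ∫ x in D, f₁ x * conj ((ψ (emb K 0 * x) : Circle) : ℂ) ∂ν = 0
    have h1 : ∀ x : Adl K, f₁ x * conj ((ψ (emb K 0 * x) : Circle) : ℂ) = φ₁ (unip K x * g) := by
      intro x
      rw [map_zero, zero_mul, AddChar.map_zero_eq_one, Circle.coe_one, map_one, mul_one]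
    simp_rw [h1]
    exact hcusp ν hν D hD (unip K) (fun x => unip_coe K x) g
  set c : K → ℂ := fun η => coefAd91 ψ ν D f₁ η * conj (coefAd91 ψ ν D f₂ η) with hc
  have hc0 : c 0 = 0 := by rw [hc]; show coefAd91 ψ ν D f₁ 0 * _ = 0; rw [hzero, zero_mul]
  have hsupp : Function.support c ⊆ {η : K | η ≠ 0} := by
    intro η hη h0
    rw [h0] at hη
    exact hη hc0
  have hcα : ∀ α : Kˣ,
      whit ψ ν D φ₁ (torK K α * g) * conj (whit ψ ν D φ₂ (torK K α * g)) = c (α : K) := by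
    intro α
    rw [hw₁, hw₂]
  constructor
  · have h1 : Summable fun α : Kˣ => ‖c (α : K)‖ :=
      hsum.comp_injective (i := fun α : Kˣ => (α : K)) Units.val_injective
    refine h1.congr fun α => ?_
    rw [hcα]
  · rw [heq]
    have h2 : ∑' η : K, c η = ∑' η : {η : K // η ≠ 0}, c η :=
      (tsum_subtype_eq_of_support_subset hsupp).symm
    have h3 : ∑' η : {η : K // η ≠ 0}, c η = ∑' α : Kˣ, c (α : K) :=
      (Equiv.tsum_eq unitsEquivNeZero (fun η : {η : K // η ≠ 0} => c η)).symm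
    show ∑' η : K, c η = _
    rw [h2, h3]
    refine tsum_congr fun α => ?_
    rw [hcα]

end Fermat.Agent.LT.T7.H91
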