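import Mathlib
import Fermat.Agent.LT.T7.H57.FoldSpec
import Fermat.Agent.LT.T7.H91.ParsevalWhit

/-!
# Row LT, tower T7, leaf T7.14.6a-F.1 `ParsevalC57` (registry 1915): PROVED (helper91)

OFF-MAIN.  Spec: `Fermat/Agent/LT/T7/H57/FoldSpec.lean` (helper57@bf22be140, sha256 cb77c17e),
byte-identical copy; nothing of it is re-defined.

* `parsevalC57_of91 : T3.InLocCompC K → T3.CompleteNDC K → T3.HaarScaleC K → H57.ParsevalC57 K`
  (adapter to `parsevalWhitC91`, registry 1801).
* `parsevalC57_of_t1_91 : T1.T1Out K → T3.CompleteNDC K → H57.ParsevalC57 K`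
  (`InLocCompC` = `T1.LocCompC`, `HaarScaleC` by `T3.H354.haarScaleC_of`).
-/

set_option autoImplicit false
set_option linter.style.haveILetI false

open IsDedekindDomain NumberField MeasureTheory ComplexConjugate
open Fermat.Agent.LT.H556.A0

noncomputable section

namespace Fermat.Agent.LT.T7.H91

open Fermat.Agent.LT.T3 Fermat.Agent.LT.T7.Rigid

variable (K : Type) [Field K] [NumberField K]

/-- **T7.14.6a-F.1** (registry 1915): `ParsevalC57` from the closed Props of tower T3. -/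
theorem parsevalC57_of91 (hLC : InLocCompC K) (hC : CompleteNDC K) (hS : HaarScaleC K) :
    H57.ParsevalC57 K := by
  letI : MeasurableSpace (Adl K) := borel (Adl K)
  intro ψ hψ hnd ν D hν _ hD hfin φ₁ φ₁' hc₁ hb₁ hl₁ hcusp₁ hc₂ hb₂ hl₂ _ g
  obtain ⟨hsum, heq⟩ := parsevalWhitC91 K hLC hC hS ψ hψ hnd ν D hν hD hfin φ₁ φ₁' hc₁ hc₂
    hb₁ hb₂ hl₁ hl₂ hcusp₁ g
  exact ⟨Summable.of_norm hsum, heq⟩

/-- `ParsevalC57` from the output of tower T1 and the completeness of the characters. -/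
theorem parsevalC57_of_t1_91 (h : Fermat.Agent.LT.T1.T1Out K) (hC : CompleteNDC K) :
    H57.ParsevalC57 K :=
  parsevalC57_of91 K h.locComp hC (H354.haarScaleC_of K h.locComp h.addFundDom)

end Fermat.Agent.LT.T7.H91
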